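import Fermat.Agent.S16.Defs
import Fermat.Agent.S20.C0_helper516
import Fermat.Prelude.Def_CuspForm_IntegralStructure
import Fermat.Prelude.Def_ModularCurve_ModularUnit
import Fermat.Prelude.Thm_CongruenceSubgroup_one_mem_strictPeriods_Gamma0

/-!
# S16, work package BRIDGE (helper137)

From the function-level interface of the S16 skeleton (helper556)

* `(E)`  `HasEis p`     : the Eisenstein series `e = (p-1)/24 + ∑ σ'(k) q^k ∈ M₂(Γ₀(p))`,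
* `(C)`  `CuspCrit p`   : `a₀(G) = 0 → G` cuspidal,
* `(UB)` `UpperBound p` : `a_k(G) ∈ ℤ (k ≥ 1) → 24 a₀(G) ∈ gcd(p-1,12) ℤ`,
* `(LB)` `LowerBound p` : a form with `a₀ = 1/2` and `a_k ∈ ℤ (k ≥ 1)`,

to the two statements about the Prelude lattice `CuspForm.intLattice p 2` consumed by the
Hecke-algebra part (WP ALG):

* `ub_prime` (UB') : a cusp form `f` with `a_k(f) ≡ σ'(k) mod m` for all `k ≥ 1` forces `m ∣ n`,
* `lb_prime` (LB') : there is `h ∈ intLattice p 2` with `a_k(h) ≡ c σ'(k) mod n`, `c` prime to `n`,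

where `n = eisensteinNumerator p = (p-1)/gcd(p-1,12)`.

The four hypotheses are stated UNFOLDED (their bodies are verbatim the bodies of
`Skel.HasEis`, `Skel.CuspCrit`, `Skel.UpperBound`, `Skel.LowerBound`), so the skeleton
`Prop`s can be passed directly.
-/

set_option autoImplicit false

noncomputable section

namespace Fermat.Agent.S16.H137

open UpperHalfPlane ModularForm CongruenceSubgroup MatrixGroups ModularFormClass
open Fermat.Agent.S20 (MF SF)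
open scoped Manifold

/-! ## `qCoeff` is linear on `MF (Gamma0 p) k` -/

section Linear

set_option linter.unusedSectionVars false

variable {p : ℕ} [NeZero p] {k : ℤ}

theorem one_mem_sp (p : ℕ) :
    (1 : ℝ) ∈ ((Gamma0 p : Subgroup SL(2, ℤ)) : Subgroup (GL (Fin 2) ℝ)).strictPeriods :=
  CongruenceSubgroup.one_mem_strictPeriods_Gamma0 p

theorem qCoeff_sub {F G : ℍ → ℂ} (hF : F ∈ MF (Gamma0 p) k) (hG : G ∈ MF (Gamma0 p) k) (n : ℕ) :
    qCoeff (F - G) n = qCoeff F n - qCoeff G n := by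
  obtain ⟨f, rfl⟩ := Fermat.Agent.S20.C0h516.mem_MF_iff_exists.1 hF
  obtain ⟨g, rfl⟩ := Fermat.Agent.S20.C0h516.mem_MF_iff_exists.1 hG
  unfold qCoeff
  rw [ModularForm.qExpansion_sub one_pos (one_mem_sp p) f g]
  simp

theorem qCoeff_smul (c : ℂ) {F : ℍ → ℂ} (hF : F ∈ MF (Gamma0 p) k) (n : ℕ) :
    qCoeff (c • F) n = c * qCoeff F n := by
  obtain ⟨f, rfl⟩ := Fermat.Agent.S20.C0h516.mem_MF_iff_exists.1 hF
  unfold qCoeff
  rw [ModularForm.qExpansion_smul one_pos (one_mem_sp p) c f]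
  simp

theorem qCoeff_cusp_zero (f : CuspForm (Gamma0 p) k) : qCoeff f 0 = 0 :=
  CuspFormClass.qExpansion_coeff_zero f one_pos (one_mem_sp p)

end Linear

/-! ## Arithmetic of `n = (p-1)/gcd(p-1,12)` and `c = 12/gcd(p-1,12)` -/

section Arith

/-- `c = 12 / gcd(p-1,12)`. -/
def cNum (p : ℕ) : ℕ := 12 / Nat.gcd (p - 1) 12

theorem gcd_pos (p : ℕ) : 0 < Nat.gcd (p - 1) 12 :=
  Nat.gcd_pos_of_pos_right _ (by norm_num)

theorem gcd_mul_eisensteinNumerator (p : ℕ) :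
    Nat.gcd (p - 1) 12 * ModularCurve.eisensteinNumerator p = p - 1 :=
  Nat.mul_div_cancel' (Nat.gcd_dvd_left _ _)

theorem gcd_mul_cNum (p : ℕ) : Nat.gcd (p - 1) 12 * cNum p = 12 :=
  Nat.mul_div_cancel' (Nat.gcd_dvd_right _ _)

theorem coprime_cNum (p : ℕ) :
    IsCoprime (cNum p : ℤ) (ModularCurve.eisensteinNumerator p : ℤ) := by
  rw [Nat.isCoprime_iff_coprime]
  exact (Nat.coprime_div_gcd_div_gcd (gcd_pos p)).symm

end Arith

/-! ## (UB') -/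

/-- **(UB')**: if a cusp form `f` of weight 2 on `Γ₀(p)` satisfies `a_k(f) ≡ σ'(k) mod m` for all
`k ≥ 1`, then `m ∣ n = (p-1)/gcd(p-1,12)`.  Hypotheses `hE`, `hUB` are `Skel.HasEis p`,
`Skel.UpperBound p` unfolded. -/
theorem ub_prime (p : ℕ) [Fact p.Prime]
    (hE : ∃ e ∈ MF (Gamma0 p) 2, qCoeff e 0 = ((p : ℂ) - 1) / 24 ∧
      ∀ k : ℕ, 1 ≤ k → qCoeff e k = (sigmaP p k : ℂ))
    (hUB : ∀ G ∈ MF (Gamma0 p) 2, IntFrom1 G →
      ∃ m : ℤ, 24 * qCoeff G 0 = (Nat.gcd (p - 1) 12 : ℂ) * (m : ℂ))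
    (m : ℕ) (hm : 1 ≤ m) (f : CuspForm (Gamma0 p) 2)
    (hf : ∀ k : ℕ, 1 ≤ k → ∃ b : ℤ, qCoeff f k = (sigmaP p k : ℂ) + (m : ℂ) * (b : ℂ)) :
    m ∣ ModularCurve.eisensteinNumerator p := by
  have : NeZero p := ⟨(Fact.out : p.Prime).ne_zero⟩
  have hp1 : 1 ≤ p := (Fact.out : p.Prime).one_le
  obtain ⟨e, he, he0, hek⟩ := hE
  have hfM : (⇑f : ℍ → ℂ) ∈ MF (Gamma0 p) 2 :=
    Fermat.Agent.S20.SF_le_MF _ _ (Fermat.Agent.S20.C0h516.coe_mem_SF f)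
  have hsub : e - ⇑f ∈ MF (Gamma0 p) 2 := Submodule.sub_mem _ he hfM
  have hm0 : (m : ℂ) ≠ 0 := by
    have : m ≠ 0 := by omega
    exact_mod_cast this
  have hcoef : ∀ k, qCoeff ((1 / (m : ℂ)) • (e - ⇑f)) k =
      (1 / (m : ℂ)) * (qCoeff e k - qCoeff f k) := by
    intro k
    rw [qCoeff_smul _ hsub, qCoeff_sub he hfM]
  have hint : IntFrom1 ((1 / (m : ℂ)) • (e - ⇑f)) := by
    intro k hk
    obtain ⟨b, hb⟩ := hf k hk
    refine ⟨-b, ?_⟩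
    rw [hcoef, hek k hk, hb]
    push_cast
    field_simp
    ring
  obtain ⟨z, hz⟩ := hUB _ (Submodule.smul_mem _ _ hsub) hint
  rw [hcoef, he0, qCoeff_cusp_zero] at hz
  have h1 : ((p : ℂ) - 1) = (m : ℂ) * ((Nat.gcd (p - 1) 12 : ℂ) * (z : ℂ)) := by
    rw [← hz]
    field_simp
    ring
  have h2 : ((p - 1 : ℕ) : ℤ) = (m : ℤ) * ((Nat.gcd (p - 1) 12 : ℤ) * z) := by
    have h3 : (((p - 1 : ℕ) : ℤ) : ℂ) = (((m : ℤ) * ((Nat.gcd (p - 1) 12 : ℤ) * z) : ℤ) : ℂ) := by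
      push_cast [Nat.cast_sub hp1]
      exact h1
    exact_mod_cast h3
  have h4 : ((Nat.gcd (p - 1) 12 : ℤ)) * (ModularCurve.eisensteinNumerator p : ℤ) =
      (Nat.gcd (p - 1) 12 : ℤ) * ((m : ℤ) * z) := by
    have := gcd_mul_eisensteinNumerator p
    have h5 : ((Nat.gcd (p - 1) 12 : ℤ)) * (ModularCurve.eisensteinNumerator p : ℤ) =
        ((p - 1 : ℕ) : ℤ) := by exact_mod_cast this
    rw [h5, h2]
    ring
  have hν : ((Nat.gcd (p - 1) 12 : ℤ)) ≠ 0 := by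
    have := gcd_pos p
    exact_mod_cast this.ne'
  have h6 : (ModularCurve.eisensteinNumerator p : ℤ) = (m : ℤ) * z := mul_left_cancel₀ hν h4
  exact Int.natCast_dvd_natCast.1 ⟨z, h6⟩

/-! ## (LB') -/

/-- **(LB')**: there is `h ∈ intLattice p 2` with `a_k(h) ≡ c σ'(k) mod n` for all `k ≥ 1`, where
`c = 12/gcd(p-1,12)` is prime to `n = (p-1)/gcd(p-1,12)`.  Hypotheses `hE`, `hC`, `hLB` are
`Skel.HasEis p`, `Skel.CuspCrit p`, `Skel.LowerBound p` unfolded. -/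
theorem lb_prime (p : ℕ) [Fact p.Prime]
    (hE : ∃ e ∈ MF (Gamma0 p) 2, qCoeff e 0 = ((p : ℂ) - 1) / 24 ∧
      ∀ k : ℕ, 1 ≤ k → qCoeff e k = (sigmaP p k : ℂ))
    (hC : ∀ G ∈ MF (Gamma0 p) 2, qCoeff G 0 = 0 → G ∈ SF (Gamma0 p) 2)
    (hLB : ∃ G ∈ MF (Gamma0 p) 2, qCoeff G 0 = 1 / 2 ∧ IntFrom1 G) :
    ∃ h ∈ CuspForm.intLattice p 2, ∃ c : ℤ,
      IsCoprime c (ModularCurve.eisensteinNumerator p : ℤ) ∧
      ∀ k : ℕ, 1 ≤ k → ∃ b : ℤ, qCoeff h k =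
        (c : ℂ) * (sigmaP p k : ℂ) + (ModularCurve.eisensteinNumerator p : ℂ) * (b : ℂ) := by
  have : NeZero p := ⟨(Fact.out : p.Prime).ne_zero⟩
  have hp1 : 1 ≤ p := (Fact.out : p.Prime).one_le
  obtain ⟨e, he, he0, hek⟩ := hE
  obtain ⟨G, hG, hG0, hGint⟩ := hLB
  set n : ℕ := ModularCurve.eisensteinNumerator p with hn
  set c : ℕ := cNum p with hc
  have hce : (c : ℂ) • e ∈ MF (Gamma0 p) 2 := Submodule.smul_mem _ _ he
  have hnG : (n : ℂ) • G ∈ MF (Gamma0 p) 2 := Submodule.smul_mem _ _ hG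
  have hH : (c : ℂ) • e - (n : ℂ) • G ∈ MF (Gamma0 p) 2 := Submodule.sub_mem _ hce hnG
  have hcoef : ∀ k, qCoeff ((c : ℂ) • e - (n : ℂ) • G) k =
      (c : ℂ) * qCoeff e k - (n : ℂ) * qCoeff G k := by
    intro k
    rw [qCoeff_sub hce hnG, qCoeff_smul _ he, qCoeff_smul _ hG]
  -- the constant term vanishes
  have hν : ((Nat.gcd (p - 1) 12 : ℕ) : ℂ) ≠ 0 := by
    have := gcd_pos p
    exact_mod_cast this.ne'
  have e1 : ((Nat.gcd (p - 1) 12 : ℕ) : ℂ) * (n : ℂ) = (p : ℂ) - 1 := by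
    have := gcd_mul_eisensteinNumerator p
    have h' : (((Nat.gcd (p - 1) 12 * ModularCurve.eisensteinNumerator p : ℕ)) : ℂ) =
        ((p - 1 : ℕ) : ℂ) := by rw [this]
    push_cast [Nat.cast_sub hp1] at h'
    exact h'
  have e2 : ((Nat.gcd (p - 1) 12 : ℕ) : ℂ) * (c : ℂ) = 12 := by
    have := gcd_mul_cNum p
    have h' : (((Nat.gcd (p - 1) 12 * cNum p : ℕ)) : ℂ) = ((12 : ℕ) : ℂ) := by rw [this]
    push_cast at h'
    exact h'
  have h0 : qCoeff ((c : ℂ) • e - (n : ℂ) • G) 0 = 0 := by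
    rw [hcoef, he0, hG0]
    have : ((Nat.gcd (p - 1) 12 : ℕ) : ℂ) *
        ((c : ℂ) * (((p : ℂ) - 1) / 24) - (n : ℂ) * (1 / 2)) = 0 := by
      rw [← e1]
      linear_combination ((Nat.gcd (p - 1) 12 : ℕ) : ℂ) * (n : ℂ) / 24 * e2
    rcases mul_eq_zero.1 this with h | h
    · exact absurd h hν
    · exact h
  obtain ⟨h, hh⟩ := Fermat.Agent.S20.C0h516.mem_SF_iff_exists.1 (hC _ hH h0)
  have hk : ∀ k : ℕ, 1 ≤ k → ∃ b : ℤ, qCoeff h k =
      ((c : ℤ) : ℂ) * (sigmaP p k : ℂ) + (n : ℂ) * (b : ℂ) := by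
    intro k hk1
    obtain ⟨b, hb⟩ := hGint k hk1
    refine ⟨-b, ?_⟩
    rw [hh, hcoef, hek k hk1, hb]
    push_cast
    ring
  refine ⟨h, ?_, (c : ℤ), coprime_cNum p, hk⟩
  refine Submodule.subset_span ?_
  intro k
  rcases Nat.eq_zero_or_pos k with rfl | hk1
  · exact ⟨0, by rw [hh, h0]; simp⟩
  · obtain ⟨b, hb⟩ := hk k hk1
    exact ⟨(c : ℤ) * (sigmaP p k : ℤ) + (n : ℤ) * b, by rw [hb]; push_cast; ring⟩

end Fermat.Agent.S16.H137
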